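import Mathlib
import Fermat.Agent.S41.H41.TransferData

/-!
# S41, PAIR-MIX: the group `Γ₀(N) ∩ Γ⁰(q)` and the second pair of degeneracy maps

For `q` prime, `q ∤ N` (notation of `S41/H41/TransferData.lean`: `conjDelta`, `t1`, `t2`):

* `GammaMix N q = Γ₀(N) ∩ Γ⁰(q)` (lower left entry divisible by `N`, upper right entry divisible
  by `q`); it contains `-1`, is contained in `Γ₀(N)` and has finite index;
* `thetaMix N q hq : Γ₀(N q) ≃* GammaMix N q`, conjugation by `δ = diag(q, 1)`: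
  `δ * g = θ g * δ` (`thetaMix_spec`), and `inclMix (θ g) = conjDelta g`;
* `alpha2 N q A φ = (φ restricted to GammaMix) ∘ θ` (`alpha2_eq_thetaMix`, `alpha2_eq_comp`);
* `t1`, `t2 : Option (Fin q) → Γ₀(N)` are right transversals of `Γ₀(N q)` resp. `GammaMix N q`
  in `Γ₀(N)`, written as correspondence systems (`isCorrSys_t1`, `isCorrSys_mix`);
* `beta1 N q A = corrOp (t1)` and `beta2 N q A u = corrOp (t2) (u ∘ θ⁻¹)`
  (`beta1_eq_t1`, `beta2_eq_mix`).
-/

set_option autoImplicit false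

open CongruenceSubgroup
open scoped MatrixGroups
open Fermat.Agent.S16.H75
open Fermat.Agent.S41.H15 (mk0 mk0_00 mk0_01 mk0_10 mk0_11 det_mat dvd_mat_10)
open Fermat.Agent.S41.H41

namespace Fermat.Agent.S41.H43

/-! ### The group `Γ₀(N) ∩ Γ⁰(q)` -/

/-- `Γ₀(N) ∩ Γ⁰(q)`: lower left entry divisible by `N`, upper right entry divisible by `q`. -/
def GammaMix (N q : ℕ) : Subgroup SL(2, ℤ) where
  carrier := {g | (N : ℤ) ∣ (g : Matrix (Fin 2) (Fin 2) ℤ) 1 0 ∧
    (q : ℤ) ∣ (g : Matrix (Fin 2) (Fin 2) ℤ) 0 1}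
  mul_mem' := by
    rintro a b ⟨ha1, ha2⟩ ⟨hb1, hb2⟩
    refine ⟨?_, ?_⟩
    · rw [Matrix.SpecialLinearGroup.coe_mul, Matrix.mul_apply, Fin.sum_univ_two]
      exact dvd_add (Dvd.dvd.mul_right ha1 _) (Dvd.dvd.mul_left hb1 _)
    · rw [Matrix.SpecialLinearGroup.coe_mul, Matrix.mul_apply, Fin.sum_univ_two]
      exact dvd_add (Dvd.dvd.mul_left hb2 _) (Dvd.dvd.mul_right ha2 _)
  one_mem' := by
    refine ⟨?_, ?_⟩ <;> simp
  inv_mem' := by
    rintro a ⟨ha1, ha2⟩
    refine ⟨?_, ?_⟩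
    · rw [Matrix.SpecialLinearGroup.coe_inv, Matrix.adjugate_fin_two]
      simpa using ha1
    · rw [Matrix.SpecialLinearGroup.coe_inv, Matrix.adjugate_fin_two]
      simpa using ha2

theorem mem_GammaMix_iff {N q : ℕ} {g : SL(2, ℤ)} :
    g ∈ GammaMix N q ↔ (N : ℤ) ∣ (g : Matrix (Fin 2) (Fin 2) ℤ) 1 0 ∧
      (q : ℤ) ∣ (g : Matrix (Fin 2) (Fin 2) ℤ) 0 1 := Iff.rfl

theorem GammaMix_le (N q : ℕ) : GammaMix N q ≤ Gamma0 N := fun g hg =>
  (mem_Gamma0_iff_dvd g).mpr hg.1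

theorem neg_one_mem_GammaMix (N q : ℕ) : (-1 : SL(2, ℤ)) ∈ GammaMix N q := by
  rw [mem_GammaMix_iff]
  refine ⟨?_, ?_⟩ <;> simp

theorem Gamma_le_GammaMix (N q : ℕ) : Gamma (N * q) ≤ GammaMix N q := by
  intro g hg
  rw [Gamma_mem] at hg
  obtain ⟨-, h01, h10, -⟩ := hg
  rw [ZMod.intCast_zmod_eq_zero_iff_dvd] at h01 h10
  rw [mem_GammaMix_iff]
  refine ⟨dvd_trans ?_ h10, dvd_trans ?_ h01⟩
  · push_cast
    exact dvd_mul_right _ _
  · push_cast
    exact dvd_mul_left _ _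

theorem finiteIndex_GammaMix (N q : ℕ) [NeZero N] [NeZero q] : (GammaMix N q).FiniteIndex :=
  Subgroup.finiteIndex_of_le (Gamma_le_GammaMix N q)

/-- The inclusion `GammaMix N q → Γ₀(N)`. -/
def inclMix (N q : ℕ) : GammaMix N q →* Gamma0 N where
  toFun g := ⟨g.1, GammaMix_le N q g.2⟩
  map_one' := rfl
  map_mul' _ _ := rfl

theorem mat_inclMix {N q : ℕ} (g : GammaMix N q) : mat (inclMix N q g) = mat g := rfl

theorem inclMix_injective (N q : ℕ) : Function.Injective (inclMix N q) := by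
  intro g g' h
  apply mat_injective
  rw [← mat_inclMix g, ← mat_inclMix g', h]

theorem dvd_mat_01_mix {N q : ℕ} (g : GammaMix N q) : (q : ℤ) ∣ mat g 0 1 := g.2.2

theorem dvd_mat_10_mix {N q : ℕ} (g : GammaMix N q) : (N : ℤ) ∣ mat g 1 0 := g.2.1

/-- The image of the inclusion is the image of `conjDelta`. -/
theorem range_inclMix {N q : ℕ} (hq : q ≠ 0) : (inclMix N q).range = (conjDelta N q hq).range := by
  ext g
  rw [mem_range_conjDelta_iff]
  constructor
  · rintro ⟨m, rfl⟩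
    exact dvd_mat_01_mix m
  · intro h
    exact ⟨⟨(g : SL(2, ℤ)), dvd_mat_10 g, h⟩, rfl⟩

/-! ### Conjugation by `δ = diag(q, 1)` -/

theorem conjDelta_mem {N q : ℕ} (hq : q ≠ 0) (g : Gamma0 (N * q)) :
    (conjDelta N q hq g : SL(2, ℤ)) ∈ GammaMix N q := by
  rw [mem_GammaMix_iff]
  refine ⟨dvd_mat_10 (conjDelta N q hq g), ?_⟩
  exact ⟨_, conjDelta_01 hq g⟩

/-- Conjugation by `δ`, as a homomorphism `Γ₀(N q) → GammaMix N q`. -/
noncomputable def thetaHom (N q : ℕ) (hq : q ≠ 0) : Gamma0 (N * q) →* GammaMix N q where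
  toFun g := ⟨(conjDelta N q hq g : SL(2, ℤ)), conjDelta_mem hq g⟩
  map_one' := by
    apply Subtype.ext
    show ((conjDelta N q hq 1 : Gamma0 N) : SL(2, ℤ)) = 1
    rw [map_one]
    rfl
  map_mul' g h := by
    apply Subtype.ext
    show ((conjDelta N q hq (g * h) : Gamma0 N) : SL(2, ℤ)) = _
    rw [map_mul]
    rfl

theorem inclMix_thetaHom {N q : ℕ} (hq : q ≠ 0) (g : Gamma0 (N * q)) :
    inclMix N q (thetaHom N q hq g) = conjDelta N q hq g := rfl

theorem thetaHom_bijective (N q : ℕ) (hq : q ≠ 0) : Function.Bijective (thetaHom N q hq) := by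
  constructor
  · intro g h e
    apply conjDelta_injective hq
    rw [← inclMix_thetaHom, ← inclMix_thetaHom, e]
  · intro m
    have hm : inclMix N q m ∈ (conjDelta N q hq).range := by
      rw [← range_inclMix hq]
      exact ⟨m, rfl⟩
    obtain ⟨g, hg⟩ := hm
    exact ⟨g, inclMix_injective N q (by rw [inclMix_thetaHom, hg])⟩

/-- **Conjugation by `δ = diag(q, 1)`** as an isomorphism `Γ₀(N q) ≃* Γ₀(N) ∩ Γ⁰(q)`. -/
noncomputable def thetaMix (N q : ℕ) (hq : q ≠ 0) : Gamma0 (N * q) ≃* GammaMix N q :=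
  MulEquiv.ofBijective (thetaHom N q hq) (thetaHom_bijective N q hq)

/-- `θ`, followed by the inclusion into `Γ₀(N)`, is `conjDelta`. -/
theorem inclMix_thetaMix {N q : ℕ} (hq : q ≠ 0) (g : Gamma0 (N * q)) :
    inclMix N q (thetaMix N q hq g) = conjDelta N q hq g := rfl

theorem conjDelta_thetaMix_symm {N q : ℕ} (hq : q ≠ 0) (m : GammaMix N q) :
    conjDelta N q hq ((thetaMix N q hq).symm m) = inclMix N q m := by
  rw [← inclMix_thetaMix, MulEquiv.apply_symm_apply]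

theorem mat_thetaMix {N q : ℕ} (hq : q ≠ 0) (g : Gamma0 (N * q)) :
    mat (thetaMix N q hq g) = mat (conjDelta N q hq g) := rfl

/-- The defining relation `δ * g = θ g * δ`. -/
theorem thetaMix_spec {N q : ℕ} (hq : q ≠ 0) (g : Gamma0 (N * q)) :
    famDelta q () * mat g = mat (thetaMix N q hq g) * famDelta q () :=
  conjDelta_spec hq g

/-- The entries of `θ g`. -/
theorem thetaMix_entries {N q : ℕ} (hq : q ≠ 0) (g : Gamma0 (N * q)) :
    mat (thetaMix N q hq g) 0 0 = mat g 0 0 ∧ mat (thetaMix N q hq g) 0 1 = (q : ℤ) * mat g 0 1 ∧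
      (q : ℤ) * mat (thetaMix N q hq g) 1 0 = mat g 1 0 ∧
      mat (thetaMix N q hq g) 1 1 = mat g 1 1 :=
  ⟨conjDelta_00 hq g, conjDelta_01 hq g, conjDelta_10 hq g, conjDelta_11 hq g⟩

/-- The relation `diag(1, q) * θ g = g * diag(1, q)`. -/
theorem diag_mul_thetaMix {N q : ℕ} (hq : q ≠ 0) (g : Gamma0 (N * q)) :
    !![1, 0; 0, (q : ℤ)] * mat (thetaMix N q hq g) = mat g * !![1, 0; 0, (q : ℤ)] :=
  diag_mul_conjDelta hq g

/-- `alpha2` is: restrict to `GammaMix N q`, then pull back along `θ`. -/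
theorem alpha2_eq_thetaMix {N q : ℕ} (hq : q ≠ 0) {A : Type*} [AddCommGroup A]
    (φ : Additive (Gamma0 N) →+ A) (g : Gamma0 (N * q)) :
    alpha2 N q A φ (Additive.ofMul g) =
      φ (Additive.ofMul (inclMix N q (thetaMix N q hq g))) :=
  alpha2_eq_conjDelta hq φ g

/-- Bundled form of `alpha2_eq_thetaMix`. -/
theorem alpha2_eq_comp {N q : ℕ} (hq : q ≠ 0) {A : Type*} [AddCommGroup A]
    (φ : Additive (Gamma0 N) →+ A) :
    alpha2 N q A φ = (φ.comp (MonoidHom.toAdditive (inclMix N q))).comp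
      (MonoidHom.toAdditive (thetaMix N q hq).toMonoidHom) := by
  refine AddMonoidHom.ext fun g => ?_
  exact alpha2_eq_thetaMix hq φ (Additive.toMul g)

/-! ### The two right transversals -/

/-- `Γ₀(N) = ⊔ Γ₀(N q) t1ᵢ`, as a correspondence system of group elements. -/
theorem isCorrSys_t1 {N q : ℕ} (hq : q.Prime) (hqN : ¬ q ∣ N) :
    IsCorrSys (Gamma0 N) (Gamma0 (N * q)) (fun i => mat (t1 hq hqN i)) :=
  famCor1_eq hq hqN ▸ isCorrSys_cor1 hq hqN

theorem coc_t1 {N q : ℕ} (hq : q.Prime) (hqN : ¬ q ∣ N) (γ : Gamma0 N) (i : Option (Fin q)) :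
    (isCorrSys_t1 hq hqN).coc γ i = (isCorrSys_cor1 hq hqN).coc γ i ∧
      (isCorrSys_t1 hq hqN).perm γ i = (isCorrSys_cor1 hq hqN).perm γ i := by
  have key := (isCorrSys_t1 hq hqN).unique (γ := γ) (i := i)
    (i' := (isCorrSys_cor1 hq hqN).perm γ i) (γ' := (isCorrSys_cor1 hq hqN).coc γ i) (by
      show mat (t1 hq hqN i) * mat γ = _ * mat (t1 hq hqN _)
      rw [mat_t1, mat_t1]
      exact (isCorrSys_cor1 hq hqN).spec γ i)
  exact ⟨key.2, key.1⟩

theorem beta1_eq_t1 {N q : ℕ} (hq : q.Prime) (hqN : ¬ q ∣ N) (A : Type*) [AddCommGroup A] :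
    beta1 N q A = (isCorrSys_t1 hq hqN).corrOp := by
  refine AddMonoidHom.ext fun u => AddMonoidHom.ext fun γ => ?_
  show beta1 N q A u (Additive.ofMul (Additive.toMul γ)) = _
  rw [beta1_apply hq hqN]
  show _ = ∑ i, u (Additive.ofMul ((isCorrSys_t1 hq hqN).coc (Additive.toMul γ) i))
  exact Finset.sum_congr rfl fun i _ => by rw [(coc_t1 hq hqN _ i).1]

/-- `Γ₀(N) = ⊔ GammaMix t2ᵢ`, as a correspondence system of group elements. -/
theorem isCorrSys_mix {N q : ℕ} (hq : q.Prime) (hqN : ¬ q ∣ N) :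
    IsCorrSys (Gamma0 N) (GammaMix N q) (fun i => mat (t2 hq hqN i)) where
  det_ne i := by
    show ((t2 hq hqN i : SL(2, ℤ)) : Matrix (Fin 2) (Fin 2) ℤ).det ≠ 0
    rw [Matrix.SpecialLinearGroup.det_coe]
    exact one_ne_zero
  ex γ i := by
    refine ⟨(isCorrSys_cor2 hq hqN).perm γ i,
      thetaMix N q hq.ne_zero ((isCorrSys_cor2 hq hqN).coc γ i), ?_⟩
    have h := conjDelta_coc2 hq hqN γ i
    rw [eq_mul_inv_iff_mul_eq] at h
    have h' := congrArg mat h
    rw [mat_mul, mat_mul] at h'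
    rw [mat_thetaMix]
    exact h'.symm
  uniq i i' m h := by
    refine (t2_unique hq hqN ((thetaMix N q hq.ne_zero).symm m) i' i ?_).symm
    rw [conjDelta_thetaMix_symm]
    apply mat_injective
    rw [mat_mul, mat_inclMix]
    exact h.symm

/-- The cocycle of `famCor2` is `θ⁻¹` of the cocycle of the transversal `t2` of `GammaMix`. -/
theorem coc_cor2_eq {N q : ℕ} (hq : q.Prime) (hqN : ¬ q ∣ N) (γ : Gamma0 N) (i : Option (Fin q)) :
    (isCorrSys_cor2 hq hqN).coc γ i =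
      (thetaMix N q hq.ne_zero).symm ((isCorrSys_mix hq hqN).coc γ i) ∧
    (isCorrSys_cor2 hq hqN).perm γ i = (isCorrSys_mix hq hqN).perm γ i := by
  have h := conjDelta_coc2 hq hqN γ i
  rw [eq_mul_inv_iff_mul_eq] at h
  have h' := congrArg mat h
  rw [mat_mul, mat_mul] at h'
  have key := (isCorrSys_mix hq hqN).unique (γ := γ) (i := i)
    (i' := (isCorrSys_cor2 hq hqN).perm γ i)
    (γ' := thetaMix N q hq.ne_zero ((isCorrSys_cor2 hq hqN).coc γ i)) (by
      rw [mat_thetaMix]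
      exact h'.symm)
  refine ⟨?_, key.1.symm⟩
  rw [key.2, MulEquiv.symm_apply_apply]

/-- `inclMix` of the cocycle of `t2`: the transfer formula in group-element form. -/
theorem inclMix_coc_mix {N q : ℕ} (hq : q.Prime) (hqN : ¬ q ∣ N) (γ : Gamma0 N)
    (i : Option (Fin q)) :
    inclMix N q ((isCorrSys_mix hq hqN).coc γ i) =
      t2 hq hqN i * γ * (t2 hq hqN ((isCorrSys_mix hq hqN).perm γ i))⁻¹ := by
  rw [eq_mul_inv_iff_mul_eq]
  apply mat_injective
  rw [mat_mul, mat_mul, mat_inclMix]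
  exact ((isCorrSys_mix hq hqN).spec γ i).symm

/-- `beta2` is: pull back along `θ⁻¹`, then transfer along the right transversal `t2` of
`GammaMix N q` in `Γ₀(N)` (pointwise form). -/
theorem beta2_apply_mix {N q : ℕ} (hq : q.Prime) (hqN : ¬ q ∣ N) {A : Type*} [AddCommGroup A]
    (u : Additive (Gamma0 (N * q)) →+ A) (γ : Gamma0 N) :
    beta2 N q A u (Additive.ofMul γ) = ∑ i, u (Additive.ofMul
      ((thetaMix N q hq.ne_zero).symm ((isCorrSys_mix hq hqN).coc γ i))) := by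
  rw [beta2_apply hq hqN]
  exact Finset.sum_congr rfl fun i _ => by rw [(coc_cor2_eq hq hqN γ i).1]

/-- `beta2` is: pull back along `θ⁻¹`, then transfer along the right transversal `t2` of
`GammaMix N q` in `Γ₀(N)`. -/
theorem beta2_eq_mix {N q : ℕ} (hq : q.Prime) (hqN : ¬ q ∣ N) {A : Type*} [AddCommGroup A]
    (u : Additive (Gamma0 (N * q)) →+ A) :
    beta2 N q A u = (isCorrSys_mix hq hqN).corrOp
      (u.comp (MonoidHom.toAdditive (thetaMix N q hq.ne_zero).symm.toMonoidHom)) := by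
  refine AddMonoidHom.ext fun γ => ?_
  exact beta2_apply_mix hq hqN u (Additive.toMul γ)

end Fermat.Agent.S41.H43
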