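import Mathlib
import Fermat.Agent.S41.H43.Mix
import Fermat.Agent.S41.H33.Conj
import Fermat.Agent.S41.H83.CosDot
import Fermat.Agent.S41.H26.ParabolicU2

/-!
# S41, PAIR: the two adjunction formulas (ADJ) for the integral pairing `pairZ`

For `q` prime, `q ∤ N`, `x` a parabolic homomorphism of `Γ₀(N)` and `u` a parabolic homomorphism
of `Γ₀(N q)` (both `ℤ`-valued):

* `pairZ_adj1 : pairZ Γ₀(N q) (alpha1 x) u = pairZ Γ₀(N) x (beta1 u)` — the projection formula
  `S41.H83.pairZ_proj` for `Γ₀(N q) ≤ Γ₀(N)` and the right transversal `t1`;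
* `pairZ_adj2 : pairZ Γ₀(N q) (alpha2 x) u = pairZ Γ₀(N) x (beta2 u)` — conjugation invariance
  `S41.H33.pairZ_conj` for `θ = thetaMix : Γ₀(N q) ≃* Γ₀(N) ∩ Γ⁰(q)`, then the projection formula
  for `Γ₀(N) ∩ Γ⁰(q) ≤ Γ₀(N)` and the right transversal `t2`.

Both hold for arbitrary `Fintype` structures on the coset spaces.
-/

set_option autoImplicit false

open CongruenceSubgroup ModularCurve ModularCurve.Period
open scoped MatrixGroups
open Fermat.Agent.S16.H75
open Fermat.Agent.S16.H97 (Cos)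
open Fermat.Agent.S41.H41
open Fermat.Agent.S41.H33 (pairZ pullHom pullHom_apply isParabolicHom_pullHom pairZ_conj)
open Fermat.Agent.S41.H83 (resHom resHom_apply isParabolicHom_resHom pairZ_proj)
open Fermat.Agent.S41.H26 (beta1_mem_parabolicHoms beta2_mem_parabolicHoms)

namespace Fermat.Agent.S41.H43

theorem Gamma0_mul_le (N q : ℕ) : Gamma0 (N * q) ≤ Gamma0 N := fun _ hg =>
  mem_Gamma0_of_mem_mul hg

theorem neg_one_mem_Gamma0 (M : ℕ) : (-1 : SL(2, ℤ)) ∈ Gamma0 M := by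
  rw [mem_Gamma0_iff_dvd]
  simp

/-- `alpha1` is the restriction along `Γ₀(N q) ≤ Γ₀(N)`. -/
theorem alpha1_eq_resHom (N q : ℕ) {A : Type*} [AddCommGroup A] (x : Additive (Gamma0 N) →+ A) :
    alpha1 N q A x = resHom (Gamma0_mul_le N q) x := by
  refine AddMonoidHom.ext fun g => ?_
  exact alpha1_apply N q x (Additive.toMul g)

/-- **(ADJ), `i = 1`**: `pairZ (alpha1 x) u = pairZ x (beta1 u)`. -/
theorem pairZ_adj1 {N q : ℕ} (hq : q.Prime) (hqN : ¬ q ∣ N)
    [Fintype (Cos (Gamma0 N))] [Fintype (Cos (Gamma0 (N * q)))]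
    {x : Additive (Gamma0 N) →+ ℤ} {u : Additive (Gamma0 (N * q)) →+ ℤ}
    (hx : IsParabolicHom (Gamma0 N) x) (hu : IsParabolicHom (Gamma0 (N * q)) u) :
    pairZ (Gamma0 (N * q)) (alpha1 N q ℤ x) u = pairZ (Gamma0 N) x (beta1 N q ℤ u) := by
  have htr : IsParabolicHom (Gamma0 N) ((isCorrSys_cor1 hq hqN).corrOp u) := by
    rw [← beta1_eq hq hqN]
    exact beta1_mem_parabolicHoms hq hqN hu
  rw [alpha1_eq_resHom, beta1_eq hq hqN]
  exact pairZ_proj (Gamma0_mul_le N q) (neg_one_mem_Gamma0 (N * q)) (isCorrSys_cor1 hq hqN)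
    (t1 hq hqN) (fun i => (mat_t1 hq hqN i).symm) hx hu htr

/-- `alpha2` is: restrict to `GammaMix N q`, then pull back along `θ`. -/
theorem alpha2_eq_pullHom {N q : ℕ} (hq : q ≠ 0) (x : Additive (Gamma0 N) →+ ℤ) :
    alpha2 N q ℤ x = pullHom (thetaMix N q hq) (resHom (GammaMix_le N q) x) := by
  refine AddMonoidHom.ext fun g => ?_
  exact alpha2_eq_thetaMix hq x (Additive.toMul g)

/-- `beta2` is: pull back along `θ⁻¹`, then transfer from `GammaMix N q` to `Γ₀(N)`. -/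
theorem beta2_eq_corrOp_pullHom {N q : ℕ} (hq : q.Prime) (hqN : ¬ q ∣ N)
    (u : Additive (Gamma0 (N * q)) →+ ℤ) :
    beta2 N q ℤ u =
      (isCorrSys_mix hq hqN).corrOp (pullHom (thetaMix N q hq.ne_zero).symm u) :=
  beta2_eq_mix hq hqN u

theorem pullHom_pullHom_symm {Γ₁ Γ₂ : Subgroup SL(2, ℤ)} (θ : Γ₁ ≃* Γ₂)
    (u : Additive Γ₁ →+ ℤ) : pullHom θ (pullHom θ.symm u) = u := by
  refine AddMonoidHom.ext fun g => ?_
  show u (Additive.ofMul (θ.symm (θ (Additive.toMul g)))) = u g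
  rw [MulEquiv.symm_apply_apply]
  rfl

/-- **(ADJ), `i = 2`**: `pairZ (alpha2 x) u = pairZ x (beta2 u)`. -/
theorem pairZ_adj2 {N q : ℕ} (hq : q.Prime) (hqN : ¬ q ∣ N)
    [Fintype (Cos (Gamma0 N))] [Fintype (Cos (Gamma0 (N * q)))]
    {x : Additive (Gamma0 N) →+ ℤ} {u : Additive (Gamma0 (N * q)) →+ ℤ}
    (hx : IsParabolicHom (Gamma0 N) x) (hu : IsParabolicHom (Gamma0 (N * q)) u) :
    pairZ (Gamma0 (N * q)) (alpha2 N q ℤ x) u = pairZ (Gamma0 N) x (beta2 N q ℤ u) := by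
  have hN : N ≠ 0 := by
    rintro rfl
    exact hqN (dvd_zero q)
  have hq0 : q ≠ 0 := hq.ne_zero
  haveI : NeZero N := ⟨hN⟩
  haveI : NeZero q := ⟨hq0⟩
  haveI : (GammaMix N q).FiniteIndex := finiteIndex_GammaMix N q
  letI : Fintype (Cos (GammaMix N q)) := Subgroup.fintypeQuotientOfFiniteIndex
  have hqpos : (0 : ℤ) < q := by exact_mod_cast hq.pos
  have hxM : IsParabolicHom (GammaMix N q) (resHom (GammaMix_le N q) x) :=
    isParabolicHom_resHom (GammaMix_le N q) hx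
  have huM : IsParabolicHom (GammaMix N q) (pullHom (thetaMix N q hq0).symm u) := by
    refine isParabolicHom_pullHom (thetaMix N q hq0).symm (D := !![1, 0; 0, (q : ℤ)]) ?_ ?_ hu
    · rw [Matrix.det_fin_two_of]
      simpa using hq0
    · intro m
      have h := diag_mul_thetaMix hq0 ((thetaMix N q hq0).symm m)
      rw [MulEquiv.apply_symm_apply] at h
      exact h
  have htr : IsParabolicHom (Gamma0 N)
      ((isCorrSys_mix hq hqN).corrOp (pullHom (thetaMix N q hq0).symm u)) := by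
    rw [← beta2_eq_corrOp_pullHom hq hqN u]
    exact beta2_mem_parabolicHoms hq hqN hu
  have hconj := pairZ_conj (neg_one_mem_Gamma0 (N * q)) (neg_one_mem_GammaMix N q)
    (thetaMix N q hq0) (D := famDelta q ())
    (by rw [famDelta, Matrix.det_fin_two_of]; simpa using hqpos)
    (fun γ => thetaMix_spec hq0 γ) hxM huM
  have hproj := pairZ_proj (GammaMix_le N q) (neg_one_mem_GammaMix N q) (isCorrSys_mix hq hqN)
    (t2 hq hqN) (fun _ => rfl) hx huM htr
  rw [pullHom_pullHom_symm, ← alpha2_eq_pullHom hq0 x] at hconj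
  rw [hconj, hproj, ← beta2_eq_corrOp_pullHom hq hqN u]

end Fermat.Agent.S41.H43
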