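/-
S41 / PAIR, sub-leaf (S2) (helper43, independent backup): the HEISENBERG LIFT.

Conventions of the landed `Fermat.Agent.S16.H97` (`Cos Γ`, `IsCoc`, `U = S * T`).  For two cocycles
`c₁ c₂ : SL(2,ℤ) → Cos Γ → R` (`R` a commutative ring) a *twisted cochain* is a map `ζ` with

  `ζ (g * h) x = ζ g (h • x) + ζ h x + c₁ h x * c₂ g (h • x)`,

i.e. `g ↦ ((x, t₁, t₂, z) ↦ (g x, t₁ + c₁ g x, t₂ + c₂ g x, z + ζ g x + t₁ * c₂ g x))` is a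
homomorphism into the permutations of `Cos Γ × R × R × R`.

* `exists_isTw`  : a twisted cochain with prescribed values at `S` and `U` exists as soon as the
  relations `s² = 1 = u³` hold (presentation `PSL(2,ℤ) = C₂ * C₃`, landed `exists_monoidHom_S_ST`);
* `IsTw.*`       : the calculus (`ζ 1 = 0`, inverses, powers, conjugation, value at `T`).
-/
import Fermat.Agent.S16.H97.CocyclePair

set_option autoImplicit false

open scoped MatrixGroups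
open ModularGroup

namespace Fermat.Agent.S41.H43

open Fermat.Agent.S16.H97

noncomputable section

variable {Γ : Subgroup SL(2, ℤ)} {R : Type*} [CommRing R]

/-- The permutation `(x, t₁, t₂, z) ↦ (g x, t₁ + v₁ x, t₂ + v₂ x, z + ζ x + t₁ * v₂ x)`. -/
def heis (g : SL(2, ℤ)) (v₁ v₂ ζ : Cos Γ → R) : Equiv.Perm (Cos Γ × R × R × R) where
  toFun p := (g • p.1, p.2.1 + v₁ p.1, p.2.2.1 + v₂ p.1, p.2.2.2 + ζ p.1 + p.2.1 * v₂ p.1)
  invFun p := (g⁻¹ • p.1, p.2.1 - v₁ (g⁻¹ • p.1), p.2.2.1 - v₂ (g⁻¹ • p.1),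
    p.2.2.2 - ζ (g⁻¹ • p.1) - (p.2.1 - v₁ (g⁻¹ • p.1)) * v₂ (g⁻¹ • p.1))
  left_inv p := by
    rcases p with ⟨x, t₁, t₂, z⟩
    refine Prod.ext ?_ (Prod.ext ?_ (Prod.ext ?_ ?_)) <;> simp <;> ring
  right_inv p := by
    rcases p with ⟨x, t₁, t₂, z⟩
    refine Prod.ext ?_ (Prod.ext ?_ (Prod.ext ?_ ?_)) <;> simp <;> ring

theorem heis_apply (g : SL(2, ℤ)) (v₁ v₂ ζ : Cos Γ → R) (p : Cos Γ × R × R × R) :
    heis g v₁ v₂ ζ p
      = (g • p.1, p.2.1 + v₁ p.1, p.2.2.1 + v₂ p.1, p.2.2.2 + ζ p.1 + p.2.1 * v₂ p.1) := rfl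

theorem heis_mul (g h : SL(2, ℤ)) (v₁ v₂ ζ w₁ w₂ ξ : Cos Γ → R) :
    heis g v₁ v₂ ζ * heis h w₁ w₂ ξ = heis (g * h) (fun x => v₁ (h • x) + w₁ x)
      (fun x => v₂ (h • x) + w₂ x) (fun x => ζ (h • x) + ξ x + w₁ x * v₂ (h • x)) := by
  refine Equiv.ext fun p => ?_
  rcases p with ⟨x, t₁, t₂, z⟩
  rw [Equiv.Perm.mul_apply, heis_apply, heis_apply, heis_apply]
  refine Prod.ext (mul_smul g h x).symm (Prod.ext ?_ (Prod.ext ?_ ?_))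
  · simp only
    ring
  · simp only
    ring
  · simp only
    ring

theorem heis_one : heis (1 : SL(2, ℤ)) (0 : Cos Γ → R) 0 0 = 1 := by
  refine Equiv.ext fun p => ?_
  rw [heis_apply]
  simp

theorem heis_neg_one (hneg : (-1 : SL(2, ℤ)) ∈ Γ) :
    heis (-1 : SL(2, ℤ)) (0 : Cos Γ → R) 0 0 = 1 := by
  refine Equiv.ext fun p => ?_
  rw [heis_apply, neg_one_smul_cos hneg]
  simp

theorem heis_inv (g : SL(2, ℤ)) (v₁ v₂ ζ : Cos Γ → R) :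
    (heis g v₁ v₂ ζ)⁻¹ = heis g⁻¹ (fun x => - v₁ (g⁻¹ • x)) (fun x => - v₂ (g⁻¹ • x))
      (fun x => - ζ (g⁻¹ • x) + v₁ (g⁻¹ • x) * v₂ (g⁻¹ • x)) := by
  rw [inv_eq_iff_mul_eq_one, heis_mul]
  have e1 : (fun x : Cos Γ => v₁ (g⁻¹ • x) + -v₁ (g⁻¹ • x)) = 0 := by
    funext x; simp
  have e2 : (fun x : Cos Γ => v₂ (g⁻¹ • x) + -v₂ (g⁻¹ • x)) = 0 := by
    funext x; simp
  have e3 : (fun x : Cos Γ => ζ (g⁻¹ • x) + (-ζ (g⁻¹ • x) + v₁ (g⁻¹ • x) * v₂ (g⁻¹ • x))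
      + -v₁ (g⁻¹ • x) * v₂ (g⁻¹ • x)) = 0 := by
    funext x
    simp only [Pi.zero_apply]
    ring
  rw [e1, e2, e3, mul_inv_cancel, heis_one]

theorem heis_injective (g : SL(2, ℤ)) {v₁ v₂ ζ w₁ w₂ ξ : Cos Γ → R}
    (h : heis g v₁ v₂ ζ = heis g w₁ w₂ ξ) : v₁ = w₁ ∧ v₂ = w₂ ∧ ζ = ξ := by
  refine ⟨funext fun x => ?_, funext fun x => ?_, funext fun x => ?_⟩
  · have := congrArg (fun q => q.2.1) (DFunLike.congr_fun h (x, (0 : R), (0 : R), (0 : R)))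
    simpa [heis_apply] using this
  · have := congrArg (fun q => q.2.2.1) (DFunLike.congr_fun h (x, (0 : R), (0 : R), (0 : R)))
    simpa [heis_apply] using this
  · have := congrArg (fun q => q.2.2.2) (DFunLike.congr_fun h (x, (0 : R), (0 : R), (0 : R)))
    simpa [heis_apply] using this

variable (Γ) in
/-- Twisted cochains for the pair of cocycles `(c₁, c₂)`. -/
def IsTw (c₁ c₂ ζ : SL(2, ℤ) → Cos Γ → R) : Prop :=
  ∀ g h x, ζ (g * h) x = ζ g (h • x) + ζ h x + c₁ h x * c₂ g (h • x)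

/-- **Heisenberg lift.**  A twisted cochain with prescribed values at `S` and `U = S * T`
(for `c₂ U = 0`). -/
theorem exists_isTw (hneg : (-1 : SL(2, ℤ)) ∈ Γ) {c₁ c₂ : SL(2, ℤ) → Cos Γ → R}
    (h₁ : IsCoc Γ c₁) (h₂ : IsCoc Γ c₂) (h₁n : c₁ (-1) = 0) (h₂n : c₂ (-1) = 0)
    (h₂U : c₂ U = 0) (zS zU : Cos Γ → R)
    (hSz : ∀ x, zS (S • x) + zS x + c₁ S x * c₂ S (S • x) = 0)
    (hUz : ∀ x, zU (U • U • x) + zU (U • x) + zU x = 0) :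
    ∃ ζ : SL(2, ℤ) → Cos Γ → R, IsTw Γ c₁ c₂ ζ ∧ ζ S = zS ∧ ζ U = zU := by
  have hs : (heis S (c₁ S) (c₂ S) zS : Equiv.Perm (Cos Γ × R × R × R)) ^ 2 = 1 := by
    rw [pow_two, heis_mul, S_mul_S]
    have e1 : (fun x : Cos Γ => c₁ S (S • x) + c₁ S x) = 0 := by
      funext x
      rw [← h₁ S S x, S_mul_S, h₁n]
    have e2 : (fun x : Cos Γ => c₂ S (S • x) + c₂ S x) = 0 := by
      funext x
      rw [← h₂ S S x, S_mul_S, h₂n]
    have e3 : (fun x : Cos Γ => zS (S • x) + zS x + c₁ S x * c₂ S (S • x)) = 0 := funext hSz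
    rw [e1, e2, e3, heis_neg_one hneg]
  have hu : (heis U (c₁ U) 0 zU : Equiv.Perm (Cos Γ × R × R × R)) ^ 3 = 1 := by
    rw [pow_succ, pow_two, heis_mul, heis_mul, show U * U * U = U ^ 3 by rw [pow_succ, pow_two],
      U_cube]
    have e1 : (fun x : Cos Γ => c₁ U (U • U • x) + c₁ U (U • x) + c₁ U x) = 0 := by
      funext x
      have h3 : c₁ (U * U * U) x = c₁ U (U • U • x) + c₁ U (U • x) + c₁ U x := by
        rw [h₁ (U * U) U x, h₁ U U (U • x)]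
      rw [← h3, show U * U * U = U ^ 3 by rw [pow_succ, pow_two], U_cube, h₁n]
    have e2 : (fun x : Cos Γ => ((0 : Cos Γ → R) (U • U • x) + (0 : Cos Γ → R) (U • x))
        + (0 : Cos Γ → R) x) = 0 := by
      funext x; simp
    have e3 : (fun x : Cos Γ => (zU (U • U • x) + zU (U • x)
        + c₁ U (U • x) * (0 : Cos Γ → R) (U • U • x)) + zU x
        + c₁ U x * ((0 : Cos Γ → R) (U • U • x) + (0 : Cos Γ → R) (U • x))) = 0 := by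
      funext x
      have := hUz x
      simp only [Pi.zero_apply, mul_zero, add_zero]
      exact this
    rw [e1, e2, e3, heis_neg_one hneg]
  obtain ⟨Φ, hΦS, hΦU⟩ := exists_monoidHom_S_ST (heis S (c₁ S) (c₂ S) zS) (heis U (c₁ U) 0 zU) hs hu
  have key : ∀ g : SL(2, ℤ), ∃ v₁ v₂ ζ : Cos Γ → R, Φ g = heis g v₁ v₂ ζ := by
    intro g
    have hg : g ∈ Subgroup.closure ({S, U} : Set SL(2, ℤ)) := by rw [closure_S_U]; trivial
    induction hg using Subgroup.closure_induction with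
    | mem x hx =>
      rcases hx with rfl | rfl
      · exact ⟨_, _, _, hΦS⟩
      · exact ⟨_, _, _, hΦU⟩
    | one => exact ⟨0, 0, 0, by rw [map_one, heis_one]⟩
    | mul x y _ _ hx hy =>
      obtain ⟨v₁, v₂, ζ, hv⟩ := hx
      obtain ⟨w₁, w₂, ξ, hw⟩ := hy
      exact ⟨_, _, _, by rw [map_mul, hv, hw, heis_mul]⟩
    | inv x _ hx =>
      obtain ⟨v₁, v₂, ζ, hv⟩ := hx
      exact ⟨_, _, _, by rw [map_inv, hv, heis_inv]⟩
  choose d₁ d₂ ζ hΦ using key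
  have hmul : ∀ g h : SL(2, ℤ), d₁ (g * h) = (fun x => d₁ g (h • x) + d₁ h x) ∧
      d₂ (g * h) = (fun x => d₂ g (h • x) + d₂ h x) ∧
      ζ (g * h) = (fun x => ζ g (h • x) + ζ h x + d₁ h x * d₂ g (h • x)) := by
    intro g h
    have h1 := hΦ (g * h)
    rw [map_mul, hΦ g, hΦ h, heis_mul] at h1
    obtain ⟨a1, a2, a3⟩ := heis_injective _ h1
    exact ⟨a1.symm, a2.symm, a3.symm⟩
  obtain ⟨hS1, hS2, hS3⟩ := heis_injective S ((hΦ S).symm.trans hΦS)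
  obtain ⟨hU1, hU2, hU3⟩ := heis_injective U ((hΦ U).symm.trans hΦU)
  have hd₁ : d₁ = c₁ := by
    have hc : IsCoc Γ d₁ := fun g h x => congrFun (hmul g h).1 x
    exact hc.ext_S_U h₁ hS1 hU1
  have hd₂ : d₂ = c₂ := by
    have hc : IsCoc Γ d₂ := fun g h x => congrFun (hmul g h).2.1 x
    exact hc.ext_S_U h₂ hS2 (hU2.trans h₂U.symm)
  refine ⟨ζ, fun g h x => ?_, hS3, hU3⟩
  have := congrFun (hmul g h).2.2 x
  rw [hd₁, hd₂] at this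
  exact this

namespace IsTw

variable {c₁ c₂ ζ : SL(2, ℤ) → Cos Γ → R}

theorem one (hζ : IsTw Γ c₁ c₂ ζ) (h₁ : IsCoc Γ c₁) (x : Cos Γ) : ζ 1 x = 0 := by
  have h := hζ 1 1 x
  rw [mul_one, one_smul, h₁.one, zero_mul, add_zero] at h
  have h2 : ζ 1 x + 0 = ζ 1 x + ζ 1 x := by rw [add_zero]; exact h
  exact (add_left_cancel h2).symm

/-- The value at an inverse. -/
theorem inv_apply (hζ : IsTw Γ c₁ c₂ ζ) (h₁ : IsCoc Γ c₁) (g : SL(2, ℤ)) (x : Cos Γ) :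
    ζ g⁻¹ x = - ζ g (g⁻¹ • x) - c₁ g⁻¹ x * c₂ g (g⁻¹ • x) := by
  have h := hζ g g⁻¹ x
  rw [mul_inv_cancel, hζ.one h₁] at h
  linear_combination -h

/-- Powers of an element on which `c₁` vanishes. -/
theorem pow_apply (hζ : IsTw Γ c₁ c₂ ζ) (h₁ : IsCoc Γ c₁) (g : SL(2, ℤ)) (hg : c₁ g = 0) (n : ℕ)
    (x : Cos Γ) : ζ (g ^ n) x = ∑ i ∈ Finset.range n, ζ g (g ^ i • x) := by
  induction n generalizing x with
  | zero => simp [hζ.one h₁]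
  | succ n ih =>
    rw [pow_succ, hζ, ih, Finset.sum_range_succ', pow_zero, one_smul, hg]
    simp only [Pi.zero_apply, zero_mul, add_zero]
    congr 1
    refine Finset.sum_congr rfl fun i _ => ?_
    rw [pow_succ, mul_smul]

/-- Conjugation: the value of `ζ` at `h⁻¹ g h` at a point `y` with `g • h • y = h • y`. -/
theorem conj_apply (hζ : IsTw Γ c₁ c₂ ζ) (h₁ : IsCoc Γ c₁) (g h : SL(2, ℤ)) (y : Cos Γ)
    (hfix : g • h • y = h • y) :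
    ζ (h⁻¹ * g * h) y
      = ζ g (h • y) + c₁ h y * c₂ g (h • y) + c₁ g (h • y) * c₂ h⁻¹ (h • y) := by
  have e1 := hζ h⁻¹ (g * h) y
  have e2 := hζ g h y
  have e3 := hζ h⁻¹ h y
  rw [inv_mul_cancel, hζ.one h₁] at e3
  rw [mul_smul, hfix] at e1
  rw [mul_assoc, e1, e2, h₁ g h y]
  linear_combination -e3

/-- `κ₀ γ = ζ γ base` is a `κ`-function for the pair of homomorphisms attached to `(c₂, c₁)`. -/
theorem kappa (hζ : IsTw Γ c₁ c₂ ζ) {γ γ' : SL(2, ℤ)} (hγ' : γ' ∈ Γ) :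
    ζ (γ * γ') (base Γ)
      = ζ γ (base Γ) + ζ γ' (base Γ) + c₁ γ' (base Γ) * c₂ γ (base Γ) := by
  rw [hζ, smul_base_of_mem hγ']

end IsTw

/-- **Heisenberg lift in normal form.**  `c₁` in `T`-normal form (`c₁ T = 0`), `c₂` with a
`U`-potential `Q` (`c₂ U = 0`, `c₂ S x = Q (S • x) - Q x`): there is a twisted cochain `ζ` with
`ζ S x = c₁ S x * Q (S • x)`, `ζ U = 0`, and then `ζ T x = - c₁ S (T • x) * Q (S • T • x)`. -/
theorem exists_isTw_normal (hneg : (-1 : SL(2, ℤ)) ∈ Γ) {c₁ c₂ : SL(2, ℤ) → Cos Γ → R}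
    (h₁ : IsCoc Γ c₁) (h₂ : IsCoc Γ c₂) (h₁n : c₁ (-1) = 0) (h₂n : c₂ (-1) = 0)
    (h₂U : c₂ U = 0) (Q : Cos Γ → R) (hQ : ∀ x, c₂ S x = Q (S • x) - Q x) :
    ∃ ζ : SL(2, ℤ) → Cos Γ → R, IsTw Γ c₁ c₂ ζ ∧ (∀ x, ζ S x = c₁ S x * Q (S • x)) ∧ ζ U = 0 ∧
      ∀ x, ζ T x = - c₁ S (T • x) * Q (S • T • x) + c₁ T x * (Q (T • x) - Q (S • T • x)) := by
  have hP : ∀ x, c₁ S (S • x) = - c₁ S x := by
    intro x
    have h := h₁ S S x
    rw [S_mul_S, h₁n] at h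
    exact eq_neg_of_add_eq_zero_left h.symm
  obtain ⟨ζ, hζ, hζS, hζU⟩ := exists_isTw hneg h₁ h₂ h₁n h₂n h₂U
    (fun x => c₁ S x * Q (S • x)) 0 (fun x => by
      change c₁ S (S • x) * Q (S • S • x) + c₁ S x * Q (S • x) + c₁ S x * c₂ S (S • x) = 0
      rw [hP, hQ, S_smul_S_smul hneg]
      ring) (fun x => by simp)
  refine ⟨ζ, hζ, fun x => by rw [hζS], hζU, fun x => ?_⟩
  -- `T = S⁻¹ * U`
  have hT : T = S⁻¹ * U := T_eq_S_inv_mul_U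
  have hsm : S⁻¹ • U • x = T • x := by rw [← mul_smul, ← hT]
  have e1 := hζ S⁻¹ U x
  rw [← hT] at e1
  have e2 := hζ.inv_apply h₁ S (U • x)
  rw [hsm] at e2
  have e3 : c₂ S⁻¹ (U • x) = - c₂ S (T • x) := by rw [h₂.inv, hsm]
  have e4 : c₁ S⁻¹ (U • x) = - c₁ S (T • x) := by rw [h₁.inv, hsm]
  have e5 : c₁ U x = c₁ S (T • x) + c₁ T x := h₁ S T x
  have e6 : S • T • x = U • x := (mul_smul S T x).symm
  rw [e1, e2, e3, e4, e5, hζU, hζS, hQ]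
  simp only [Pi.zero_apply, e6]
  ring

/-- Conjugates of powers of `T`, for `c₁` in `T`-normal form: the value of `ζ` at `h⁻¹ T^w h` is
the orbit sum of `ζ T` (if `c₂ (T^w)` vanishes at `h • y`, e.g. for a parabolic `ψ`). -/
theorem IsTw.conj_T_pow {c₁ c₂ ζ : SL(2, ℤ) → Cos Γ → R} (hζ : IsTw Γ c₁ c₂ ζ)
    (h₁ : IsCoc Γ c₁) (h₁T : c₁ T = 0) (h : SL(2, ℤ)) (y : Cos Γ) (w : ℕ)
    (hfix : T ^ w • h • y = h • y) (h₂ : c₂ (T ^ w) (h • y) = 0) :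
    ζ (h⁻¹ * T ^ w * h) y = ∑ j ∈ Finset.range w, ζ T (T ^ j • h • y) := by
  rw [hζ.conj_apply h₁ (T ^ w) h y hfix, h₂, mul_zero, add_zero, h₁.pow,
    hζ.pow_apply h₁ T h₁T]
  simp [h₁T]

/-- `∑_x ζ T x = ∑_x P x * Q x` (`P = c₁ S`), when `ζ T x = - P (T x) * Q (S T x)`. -/
theorem sum_zeta_T [Fintype (Cos Γ)] (hneg : (-1 : SL(2, ℤ)) ∈ Γ) {c₁ : SL(2, ℤ) → Cos Γ → R}
    (h₁ : IsCoc Γ c₁) (h₁n : c₁ (-1) = 0) (Q ζT : Cos Γ → R)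
    (hζT : ∀ x, ζT x = - c₁ S (T • x) * Q (S • T • x)) :
    ∑ x, ζT x = ∑ x, c₁ S x * Q x := by
  have hP : ∀ x, c₁ S (S • x) = - c₁ S x := by
    intro x
    have h := h₁ S S x
    rw [S_mul_S, h₁n] at h
    exact eq_neg_of_add_eq_zero_left h.symm
  calc ∑ x, ζT x = ∑ x, - c₁ S (T • x) * Q (S • T • x) :=
        Finset.sum_congr rfl (fun x _ => hζT x)
    _ = ∑ y, - c₁ S y * Q (S • y) :=
        Equiv.sum_comp (MulAction.toPerm T) (fun y => - c₁ S y * Q (S • y))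
    _ = ∑ y, - c₁ S (S • y) * Q (S • S • y) :=
        (Equiv.sum_comp (MulAction.toPerm S) (fun y => - c₁ S y * Q (S • y))).symm
    _ = ∑ y, c₁ S y * Q y :=
        Finset.sum_congr rfl (fun y _ => by rw [hP, S_smul_S_smul hneg]; ring)

/-- **(S2), packaged.**  For `c₁` in `T`-normal form and `c₂` with `U`-potential `Q` there is a
twisted cochain `ζ` such that
* `κ₀ γ = ζ γ base` satisfies `κ₀ (γ γ') = κ₀ γ + κ₀ γ' + c₁ γ' base * c₂ γ base` on `Γ`,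
* `ζ T x = - c₁ S (T x) * Q (S T x)`, so `∑_x ζ T x = ∑_x c₁ S x * Q x`,
* `κ₀ (h⁻¹ T^w h) = ∑_{j<w} ζ T (T^j h base)` whenever `T^w` fixes `h base` and `c₂ (T^w)`
  vanishes there. -/
theorem exists_isTw_package [Fintype (Cos Γ)] (hneg : (-1 : SL(2, ℤ)) ∈ Γ)
    {c₁ c₂ : SL(2, ℤ) → Cos Γ → R} (h₁ : IsCoc Γ c₁) (h₂ : IsCoc Γ c₂) (h₁n : c₁ (-1) = 0)
    (h₂n : c₂ (-1) = 0) (h₁T : c₁ T = 0) (h₂U : c₂ U = 0) (Q : Cos Γ → R)
    (hQ : ∀ x, c₂ S x = Q (S • x) - Q x) :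
    ∃ ζ : SL(2, ℤ) → Cos Γ → R, IsTw Γ c₁ c₂ ζ ∧
      (∀ γ γ' : SL(2, ℤ), γ' ∈ Γ → ζ (γ * γ') (base Γ)
        = ζ γ (base Γ) + ζ γ' (base Γ) + c₁ γ' (base Γ) * c₂ γ (base Γ)) ∧
      (∀ x, ζ T x = - c₁ S (T • x) * Q (S • T • x)) ∧
      (∑ x, ζ T x = ∑ x, c₁ S x * Q x) ∧
      ∀ (h : SL(2, ℤ)) (w : ℕ), T ^ w • h • base Γ = h • base Γ →
        c₂ (T ^ w) (h • base Γ) = 0 →
        ζ (h⁻¹ * T ^ w * h) (base Γ) = ∑ j ∈ Finset.range w, ζ T (T ^ j • h • base Γ) := by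
  obtain ⟨ζ, hζ, -, -, hζT⟩ := exists_isTw_normal hneg h₁ h₂ h₁n h₂n h₂U Q hQ
  have hζT' : ∀ x, ζ T x = - c₁ S (T • x) * Q (S • T • x) := by
    intro x
    rw [hζT x, h₁T]
    simp
  exact ⟨ζ, hζ, fun γ γ' hγ' => hζ.kappa hγ', hζT', sum_zeta_T hneg h₁ h₁n Q (ζ T) hζT',
    fun h w hfix h2 => hζ.conj_T_pow h₁ h₁T h (base Γ) w hfix h2⟩

end

end Fermat.Agent.S41.H43
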