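import Mathlib
import Fermat.Agent.S41.H43.Adj
import Fermat.Agent.S41.H33.Perf
import Fermat.Agent.S41.H14.PairOut
import Fermat.Agent.S41.H15.BetaAlpha
import Fermat.Agent.S41.H40.Spec

/-!
# S41, PAIR-OUT: the (PAIR) leaf of the top assembly

`pair_leaf : Fermat.Agent.S41.H40.PairStatement p N q l₀` for `p` prime, `0 < N`, `q` prime,
`q ∤ N`, `l₀ ∤ N`: the integral pairing `pairZ (Gamma0 M)` of `S41.H33` at every positive level,
fed into `S41.H14.pairStatement_of`: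

* biadditivity, skew-symmetry: `H33.pairZ_add_left`, `pairZ_add_right`, `pairZ_skew`;
* (PERF): `H33.pairZ_perf`;
* (ADJ) `i = 1, 2`: `pairZ_adj1`, `pairZ_adj2` (`Adj.lean`);
* `beta1 ∘ alpha2 = T_{l₀} = beta2 ∘ alpha1`: `H15.beta1_alpha2`, `H15.beta2_alpha1`.
-/

set_option autoImplicit false

open CongruenceSubgroup ModularCurve ModularCurve.Period
open scoped MatrixGroups
open Fermat.Agent.S16.H75 (heckeHom)
open Fermat.Agent.S16.H97 (Cos)
open Fermat.Agent.S41.H41 (alpha1 alpha2 beta1 beta2)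
open Fermat.Agent.S41.H33 (pairZ pairZ_add_left pairZ_add_right pairZ_skew pairZ_perf)

namespace Fermat.Agent.S41.H43

/-- The `Fintype` structure on `SL(2, ℤ) ⧸ Γ₀(M)` for `0 < M`. -/
noncomputable def fintypeCosGamma0 (M : ℕ) (hM : 0 < M) : Fintype (Cos (Gamma0 M)) :=
  haveI : NeZero M := ⟨hM.ne'⟩
  Subgroup.fintypeQuotientOfFiniteIndex

/-- The integral pairing at level `M` (zero at level `0`). -/
noncomputable def pairLevel (M : ℕ) (φ ψ : Additive (Gamma0 M) →+ ℤ) : ℤ :=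
  if h : 0 < M then @pairZ (Gamma0 M) (fintypeCosGamma0 M h) φ ψ else 0

theorem pairLevel_eq {M : ℕ} (h : 0 < M) (φ ψ : Additive (Gamma0 M) →+ ℤ) :
    pairLevel M φ ψ = @pairZ (Gamma0 M) (fintypeCosGamma0 M h) φ ψ := dif_pos h

/-- **PAIR-OUT**: the (PAIR) leaf of the S41 assembly. -/
theorem pair_leaf {p N q : ℕ} {l₀ : Nat.Primes} (hp : p.Prime) (hN : 0 < N) (hq : q.Prime)
    (hqN : ¬ q ∣ N) (hl₀N : ¬ (l₀ : ℕ) ∣ N) : Fermat.Agent.S41.H40.PairStatement p N q l₀ := by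
  refine Fermat.Agent.S41.H14.pairStatement_of hN hq hqN hl₀N pairLevel ?_ ?_ ?_ ?_ ?_ ?_ ?_ ?_
  · intro M hM φ φ' ψ hφ hφ' hψ
    rw [pairLevel_eq hM, pairLevel_eq hM, pairLevel_eq hM]
    letI := fintypeCosGamma0 M hM
    exact pairZ_add_left (neg_one_mem_Gamma0 M) hφ hφ' hψ
  · intro M hM φ ψ ψ' hφ hψ hψ'
    rw [pairLevel_eq hM, pairLevel_eq hM, pairLevel_eq hM]
    letI := fintypeCosGamma0 M hM
    exact pairZ_add_right (neg_one_mem_Gamma0 M) hφ hψ hψ'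
  · intro M hM φ ψ hφ hψ
    rw [pairLevel_eq hM, pairLevel_eq hM]
    letI := fintypeCosGamma0 M hM
    exact pairZ_skew (neg_one_mem_Gamma0 M) hφ hψ
  · intro M hM φ hφ h
    letI := fintypeCosGamma0 M hM
    exact pairZ_perf (neg_one_mem_Gamma0 M) p hp hφ (fun ψ hψ => by
      have := h ψ hψ
      rwa [pairLevel_eq hM] at this)
  · intro r hr hrN x u hx hu
    have hM : 0 < N * r := Nat.mul_pos hN hr.pos
    rw [pairLevel_eq hM, pairLevel_eq hN]
    exact @pairZ_adj1 N r hr hrN (fintypeCosGamma0 N hN) (fintypeCosGamma0 (N * r) hM) x u hx hu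
  · intro r hr hrN x u hx hu
    have hM : 0 < N * r := Nat.mul_pos hN hr.pos
    rw [pairLevel_eq hM, pairLevel_eq hN]
    exact @pairZ_adj2 N r hr hrN (fintypeCosGamma0 N hN) (fintypeCosGamma0 (N * r) hM) x u hx hu
  · intro φ _
    exact Fermat.Agent.S41.H15.beta1_alpha2 l₀.2 hl₀N φ
  · intro φ _
    exact Fermat.Agent.S41.H15.beta2_alpha1 l₀.2 hl₀N φ

/-- The (PAIR) leaf in the exact shape consumed by `Fermat.Agent.S41.H40.s41_of_pair`. -/
theorem pair_leaf' {p N q : ℕ} (hp : p.Prime) (hN : 0 < N) (hq : q.Prime) (hqN : ¬ q ∣ N)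
    (l₀ : Nat.Primes) (hl₀ : ¬ (l₀ : ℕ) ∣ N * q) : Fermat.Agent.S41.H40.PairStatement p N q l₀ :=
  pair_leaf hp hN hq hqN (fun h => hl₀ (Dvd.dvd.mul_right h q))

end Fermat.Agent.S41.H43
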